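import Mathlib
import Fermat.Agent.LT.H129.SplitSpec
import Fermat.Agent.LT.T1.H919.K0Compact

/-!
# Row LT, tower T3, leaf T3.18a.4.5.S3 `H129.SplitBoxC129` (registry row 1502; helper250)

OFF-MAIN.  Typed against byte-identical copies of `LT/H129/SplitSpec.lean` (helper129,
sha256 `3547169e…`), `LT/T3/H893/NIntSpec.lean` (`1ddb5c45…`), `LT/T1/H919/K0Compact.lean`
(helper919; the compact box `box919 K 1`) and their closures.

`splitBoxC250 K : H129.SplitBoxC129 K` VERBATIM, UNCONDITIONAL: the elements of
`E₀ = outGrp K 𝔫 v₀` which are integral at `v₀` and of norm `≤ 1` at the infinite places lie in the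
compact box `T1.H919.box919 K 1`.
-/

set_option autoImplicit false

open IsDedekindDomain NumberField
open Fermat.Agent.LT.H556.A0 Fermat.Agent.LT.T3.AS Fermat.Agent.LT.T3.AS.N893

noncomputable section

namespace Fermat.Agent.LT.T3.H250

variable (K : Type) [Field K] [NumberField K]

/-- The closure of the image of an ideal of `𝒪_K` in `K_v` lies in `𝒪_v`. -/
theorem idealClosure_subset_integers250 (𝔫 : Ideal (𝓞 K)) (v : HeightOneSpectrum (𝓞 K)) :
    idealClosure 𝔫 v ⊆ (v.adicCompletionIntegers K : Set (v.adicCompletion K)) := by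
  refine closure_minimal ?_ (Valued.isClosed_valuationSubring (v.adicCompletion K))
  rintro _ ⟨x, -, rfl⟩
  exact v.coe_mem_adicCompletionIntegers (K := K) x

/-- **T3.18a.4.5.S3.** -/
theorem splitBoxC250 : Fermat.Agent.LT.H129.SplitBoxC129 K := by
  intro 𝔫 v₀
  refine ⟨Fermat.Agent.LT.T1.H919.box919 K 1, Fermat.Agent.LT.T1.H919.isCompact_box919 1, ?_⟩
  intro X hX hv₀ hinf
  refine ⟨fun w => ?_, fun v => ?_⟩
  · have h := hinf w
    have e : infHom K w X = InfinitePlace.Completion.extensionEmbedding w (X.1 w) := rfl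
    rw [e, Fermat.Agent.LT.T1.H793.norm_extensionEmbedding793] at h
    exact h
  · by_cases hv : v = v₀
    · subst hv
      have e : finHom K v X = X.2 v := rfl
      rw [e] at hv₀
      exact (HeightOneSpectrum.mem_adicCompletionIntegers (R := 𝓞 K) (K := K) (v := v)).2 hv₀
    · exact idealClosure_subset_integers250 K 𝔫 v (hX v hv)

end Fermat.Agent.LT.T3.H250

end
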